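import Fermat.Agent.S52.Defs
import Mathlib.Algebra.Ring.Hom.Defs
import Mathlib.Algebra.Group.Hom.Basic
import Mathlib.Algebra.GroupWithZero.Hom
import Mathlib.Data.Nat.Cast.Basic
import Mathlib.Algebra.Ring.Int.Defs

/-!
# S52 / GLUE / MapRS: the Rubin–Silverberg polynomials commute with ring homomorphisms.
-/

set_option autoImplicit false

namespace Fermat.Agent.S52.GLUE

variable {R S : Type*} [CommRing R] [CommRing S]

theorem map_rsA (f : R →+* S) (H T s : R) : f (rsA H T s) = rsA (f H) (f T) (f s) := by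
  simp only [rsA, rsA1, rsAc1, rsAc2, rsAc3, rsAc4, rsAc5, rsAc6, rsAc7, rsAc8, rsAc9, rsAc10, rsAc11, rsAc12, rsAc13, rsAc14, rsAc15, rsAc16, rsAc17, rsAc18, rsAc19, rsAc20,
    map_add, map_mul, map_pow, map_sub, map_neg, map_ofNat]

theorem map_rsB (f : R →+* S) (H T s : R) : f (rsB H T s) = rsB (f H) (f T) (f s) := by
  simp only [rsB, rsB1, rsBc1, rsBc2, rsBc3, rsBc4, rsBc5, rsBc6, rsBc7, rsBc8, rsBc9, rsBc10, rsBc11, rsBc12, rsBc13, rsBc14, rsBc15, rsBc16, rsBc17, rsBc18, rsBc19, rsBc20, rsBc21, rsBc22, rsBc23, rsBc24, rsBc25, rsBc26, rsBc27, rsBc28, rsBc29, rsBc30,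
    map_add, map_mul, map_pow, map_sub, map_neg, map_ofNat]

end Fermat.Agent.S52.GLUE
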