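import Fermat.Agent.S52.GLUE.ShortModel
import Fermat.Agent.S52.GLUE.MapRS

/-!
# S52 / GLUE / Ap: from the trace congruence on short models over `ZMod ℓ` to the
`a_ℓ`-congruence for the switched integral model.

Everything here is stated with the other packages' interface theorems as HYPOTHESES
(`hmap`, `hc4`, `hc6`, `htr`), so that this file does not depend on their files.
-/

set_option autoImplicit false

open WeierstrassCurve WeierstrassCurve.Affine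

namespace Fermat.Agent.S52.GLUE

/-- Equal reductions have equal `a_ℓ`. -/
theorem apOfModel_eq_of_map_eq (W W' : WeierstrassCurve ℤ) (ℓ : ℕ)
    (h : W'.map (Int.castRingHom (ZMod ℓ)) = W.map (Int.castRingHom (ZMod ℓ))) :
    W'.apOfModel ℓ = W.apOfModel ℓ := by
  unfold WeierstrassCurve.apOfModel WeierstrassCurve.reductionMod
  rw [h]

/-- A prime `ℓ ≥ 5` does not vanish on `2`, `3` in `ZMod ℓ`. -/
theorem two_three_ne_zero (ℓ : ℕ) [Fact ℓ.Prime] (hℓ : 5 ≤ ℓ) :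
    (2 : ZMod ℓ) ≠ 0 ∧ (3 : ZMod ℓ) ≠ 0 := by
  constructor
  · intro h
    have h' : ((2 : ℕ) : ZMod ℓ) = 0 := by exact_mod_cast h
    have h'' := Nat.le_of_dvd (by norm_num) ((ZMod.natCast_eq_zero_iff 2 ℓ).1 h')
    omega
  · intro h
    have h' : ((3 : ℕ) : ZMod ℓ) = 0 := by exact_mod_cast h
    have h'' := Nat.le_of_dvd (by norm_num) ((ZMod.natCast_eq_zero_iff 3 ℓ).1 h')
    omega

/-- `a_ℓ` of an integral model is the trace of Frobenius of the short model of its reduction. -/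
theorem apOfModel_eq_short (W : WeierstrassCurve ℤ) (ℓ : ℕ) [Fact ℓ.Prime]
    (h2 : (2 : ZMod ℓ) ≠ 0) (h3 : (3 : ZMod ℓ) ≠ 0) :
    W.apOfModel ℓ
      = (shortW (27 * ((-W.c₄ : ℤ) : ZMod ℓ)) (54 * ((-W.c₆ : ℤ) : ZMod ℓ))).traceOfFrobenius := by
  have hc := card_shortModel h2 h3 (W.map (Int.castRingHom (ZMod ℓ)))
  have e4 : (-27 : ZMod ℓ) * (W.map (Int.castRingHom (ZMod ℓ))).c₄
      = 27 * ((-W.c₄ : ℤ) : ZMod ℓ) := by
    rw [WeierstrassCurve.map_c₄]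
    simp only [eq_intCast, Int.cast_neg]
    ring
  have e6 : (-54 : ZMod ℓ) * (W.map (Int.castRingHom (ZMod ℓ))).c₆
      = 54 * ((-W.c₆ : ℤ) : ZMod ℓ) := by
    rw [WeierstrassCurve.map_c₆]
    simp only [eq_intCast, Int.cast_neg]
    ring
  rw [e4, e6] at hc
  unfold WeierstrassCurve.apOfModel WeierstrassCurve.reductionMod
    WeierstrassCurve.traceOfFrobenius WeierstrassCurve.card
  rw [hc]

/-- At a good prime `ℓ ≥ 5` the reduced short model is nonsingular. -/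
theorem disc_ne_zero_of_good (W : WeierstrassCurve ℤ) (ℓ : ℕ) [Fact ℓ.Prime] (hℓ : 5 ≤ ℓ)
    (hg : W.IsGoodPrimeFor ℓ) :
    ((-W.c₄ : ℤ) : ZMod ℓ) ^ 3 + ((-W.c₆ : ℤ) : ZMod ℓ) ^ 2 ≠ 0 := by
  obtain ⟨h2, h3⟩ := two_three_ne_zero ℓ hℓ
  have hrel : ((-W.c₄ : ℤ) : ZMod ℓ) ^ 3 + ((-W.c₆ : ℤ) : ZMod ℓ) ^ 2
      = -(2 ^ 6 * 3 ^ 3 * ((W.Δ : ℤ) : ZMod ℓ)) := by
    have h := W.c_relation
    have h' : ((1728 * W.Δ : ℤ) : ZMod ℓ) = ((W.c₄ ^ 3 - W.c₆ ^ 2 : ℤ) : ZMod ℓ) := by rw [h]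
    push_cast at h' ⊢
    linear_combination h'
  rw [hrel, neg_ne_zero]
  refine mul_ne_zero (mul_ne_zero (pow_ne_zero _ h2) (pow_ne_zero _ h3)) ?_
  intro h0
  exact hg ((ZMod.intCast_zmod_eq_zero_iff_dvd W.Δ ℓ).1 h0)

/-- The discriminant of the short model `y² = x³ + 27 H x + 54 T` in characteristic `ℓ ≥ 5`. -/
theorem short_disc_ne_zero (ℓ : ℕ) [Fact ℓ.Prime] (hℓ : 5 ≤ ℓ) (H T : ZMod ℓ)
    (h : H ^ 3 + T ^ 2 ≠ 0) : 4 * (27 * H) ^ 3 + 27 * (54 * T) ^ 2 ≠ 0 := by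
  obtain ⟨h2, h3⟩ := two_three_ne_zero ℓ hℓ
  have e : 4 * (27 * H) ^ 3 + 27 * (54 * T) ^ 2 = 2 ^ 2 * 3 ^ 9 * (H ^ 3 + T ^ 2) := by ring
  rw [e]
  exact mul_ne_zero (mul_ne_zero (pow_ne_zero _ h2) (pow_ne_zero _ h3)) h

/-- A prime `ℓ ≥ 7` is not divisible by `5`. -/
theorem not_five_dvd (ℓ : ℕ) [Fact ℓ.Prime] (hℓ : 7 ≤ ℓ) : ¬ 5 ∣ ℓ := by
  have hp : ℓ.Prime := Fact.out
  intro h
  have h' := (Nat.prime_dvd_prime_iff_eq (by norm_num) hp).1 h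
  omega

/-- A prime different from `2`, `3`, `5` is at least `7`. -/
theorem seven_le_of_prime (ℓ : ℕ) (hℓ : ℓ.Prime) (h2 : ℓ ≠ 2) (h3 : ℓ ≠ 3) (h5 : ℓ ≠ 5) :
    7 ≤ ℓ := by
  by_contra hlt
  have hlt' : ℓ < 7 := by omega
  interval_cases ℓ
  · exact absurd hℓ (by norm_num)
  · exact absurd hℓ (by norm_num)
  · exact h2 rfl
  · exact h3 rfl
  · exact absurd hℓ (by norm_num)
  · exact h5 rfl
  · exact absurd hℓ (by norm_num)

/-- The `a_ℓ`-congruence for the switched model, with the other packages' interface theorems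
as hypotheses. -/
theorem switch_ap_congr_of
    (hmap : ∀ (W : WeierstrassCurve ℤ) (m : ℤ) (n : ℕ), (n : ℤ) ∣ 6 * m →
      (switchModel W m).map (Int.castRingHom (ZMod n)) = W.map (Int.castRingHom (ZMod n)))
    (hc4 : ∀ (W : WeierstrassCurve ℤ) (m : ℤ),
      (switchModel W m).c₄ = -rsA (-W.c₄) (-W.c₆) (10368 * m))
    (hc6 : ∀ (W : WeierstrassCurve ℤ) (m : ℤ),
      (switchModel W m).c₆ = -rsB (-W.c₄) (-W.c₆) (10368 * m))
    (htr : ∀ (ℓ : ℕ) [Fact ℓ.Prime], 7 ≤ ℓ → ∀ H0 T0 s : ZMod ℓ, H0 ^ 3 + T0 ^ 2 ≠ 0 →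
      rsA H0 T0 s ^ 3 + rsB H0 T0 s ^ 2 ≠ 0 →
      (5 : ℤ) ∣ (shortW (27 * rsA H0 T0 s) (54 * rsB H0 T0 s)).traceOfFrobenius
        - (shortW (27 * H0) (54 * T0)).traceOfFrobenius)
    (W : WeierstrassCurve ℤ) (m : ℤ) (ℓ : ℕ) (hℓ : ℓ.Prime) (h5 : ℓ ≠ 5)
    (hg : W.IsGoodPrimeFor ℓ) (hg' : (switchModel W m).IsGoodPrimeFor ℓ) :
    (5 : ℤ) ∣ (switchModel W m).apOfModel ℓ - W.apOfModel ℓ := by
  have : Fact ℓ.Prime := ⟨hℓ⟩
  by_cases h23 : ℓ = 2 ∨ ℓ = 3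
  · have hdvd : (ℓ : ℤ) ∣ 6 * m := by
      rcases h23 with rfl | rfl
      · exact Dvd.dvd.mul_right (by norm_num) m
      · exact Dvd.dvd.mul_right (by norm_num) m
    rw [apOfModel_eq_of_map_eq W (switchModel W m) ℓ (hmap W m ℓ hdvd), sub_self]
    exact dvd_zero _
  · have hℓ7 : 7 ≤ ℓ :=
      seven_le_of_prime ℓ hℓ (fun h => h23 (Or.inl h)) (fun h => h23 (Or.inr h)) h5
    have hℓ5 : 5 ≤ ℓ := by omega
    obtain ⟨h2, h3⟩ := two_three_ne_zero ℓ hℓ5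
    have e4 : ((-(switchModel W m).c₄ : ℤ) : ZMod ℓ)
        = rsA ((-W.c₄ : ℤ) : ZMod ℓ) ((-W.c₆ : ℤ) : ZMod ℓ) ((10368 * m : ℤ) : ZMod ℓ) := by
      rw [hc4, neg_neg]
      exact map_rsA (Int.castRingHom (ZMod ℓ)) _ _ _
    have e6 : ((-(switchModel W m).c₆ : ℤ) : ZMod ℓ)
        = rsB ((-W.c₄ : ℤ) : ZMod ℓ) ((-W.c₆ : ℤ) : ZMod ℓ) ((10368 * m : ℤ) : ZMod ℓ) := by
      rw [hc6, neg_neg]
      exact map_rsB (Int.castRingHom (ZMod ℓ)) _ _ _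
    have h0 := disc_ne_zero_of_good W ℓ hℓ5 hg
    have h1 := disc_ne_zero_of_good (switchModel W m) ℓ hℓ5 hg'
    rw [e4, e6] at h1
    rw [apOfModel_eq_short W ℓ h2 h3, apOfModel_eq_short (switchModel W m) ℓ h2 h3, e4, e6]
    exact htr ℓ hℓ7 _ _ _ h0 h1

end Fermat.Agent.S52.GLUE
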