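import Fermat.Agent.S52.Basic

/-!
# S52 / GLUE / Psi3: `ψ₃` of a general Weierstrass model versus `ψ₃` of its short model.
-/

set_option autoImplicit false

namespace Fermat.Agent.S52

/-- `ψ₃` of a general model versus `ψ₃` of its short model. -/
theorem psi3_shortModel {K : Type*} [Field K] (W : WeierstrassCurve K) (x : K) :
    3 * (36 * x + 3 * W.b₂) ^ 4 + 6 * (-27 * W.c₄) * (36 * x + 3 * W.b₂) ^ 2
        + 12 * (-54 * W.c₆) * (36 * x + 3 * W.b₂) - (-27 * W.c₄) ^ 2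
      = 36 ^ 4 * (3 * x ^ 4 + W.b₂ * x ^ 3 + 3 * W.b₄ * x ^ 2 + 3 * W.b₆ * x + W.b₈) := by
  simp only [WeierstrassCurve.b₂, WeierstrassCurve.b₄, WeierstrassCurve.b₆, WeierstrassCurve.b₈,
    WeierstrassCurve.c₄, WeierstrassCurve.c₆]
  ring

end Fermat.Agent.S52
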