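import Mathlib

/-!
# S52 / GLUE / Trace: the abstract congruence argument (package C of the blueprint).

Two endomorphisms `φ`, `φ'` satisfying quadratic relations with the same constant term `ℓ`
(`5 ∤ ℓ`) and acting in the same way on injective images of `(ZMod 5)²` have traces congruent mod 5.
-/

set_option autoImplicit false

namespace Fermat.Agent.S52.GLUE

/-- Abstract trace congruence. -/
theorem trace_congr_abstract {G G' : Type*} [AddCommGroup G] [AddCommGroup G']
    (φ : G →+ G) (φ' : G' →+ G') (a a' : ℤ) (ℓ : ℕ) (h5 : ¬ 5 ∣ ℓ)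
    (hrel : ∀ P : G, φ (φ P) - a • φ P + (ℓ : ℤ) • P = 0)
    (hrel' : ∀ P : G', φ' (φ' P) - a' • φ' P + (ℓ : ℤ) • P = 0)
    (F : ZMod 5 × ZMod 5 → ZMod 5 × ZMod 5)
    (i : ZMod 5 × ZMod 5 →+ G) (i' : ZMod 5 × ZMod 5 →+ G')
    (hi : Function.Injective i) (hi' : Function.Injective i')
    (hF : ∀ m, φ (i m) = i (F m)) (hF' : ∀ m, φ' (i' m) = i' (F m)) :
    (5 : ℤ) ∣ a' - a := by
  have : Fact (Nat.Prime 5) := ⟨by norm_num⟩
  have key : ∀ m, F (F m) - a • F m + (ℓ : ℤ) • m = 0 := by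
    intro m
    apply hi
    rw [map_zero, map_add, map_sub, map_zsmul, map_zsmul, ← hF, ← hF]
    exact hrel (i m)
  have key' : ∀ m, F (F m) - a' • F m + (ℓ : ℤ) • m = 0 := by
    intro m
    apply hi'
    rw [map_zero, map_add, map_sub, map_zsmul, map_zsmul, ← hF', ← hF']
    exact hrel' (i' m)
  have hsub : ∀ m, (a' - a) • F m = 0 := by
    intro m
    have h1 := key m
    have h2 := key' m
    have h3 : (a' - a) • F m
        = (F (F m) - a • F m + (ℓ : ℤ) • m) - (F (F m) - a' • F m + (ℓ : ℤ) • m) := by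
      rw [sub_smul]; abel
    rw [h3, h1, h2, sub_zero]
  have hex : ∃ m, F m ≠ 0 := by
    by_contra hne
    simp only [not_exists, not_not] at hne
    have h := key ((1 : ZMod 5), (0 : ZMod 5))
    rw [hne, hne, smul_zero, sub_zero, zero_add] at h
    have h1 : ((ℓ : ℤ) : ZMod 5) = 0 := by
      have h2 := congrArg Prod.fst h
      simpa using h2
    have h2 : ((5 : ℕ) : ℤ) ∣ (ℓ : ℤ) := (ZMod.intCast_zmod_eq_zero_iff_dvd (ℓ : ℤ) 5).1 h1
    exact h5 (by exact_mod_cast h2)
  obtain ⟨m, hm⟩ := hex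
  have hc : (((a' - a : ℤ)) : ZMod 5) = 0 := by
    have h := hsub m
    have h1 : ((a' - a : ℤ) : ZMod 5) * (F m).1 = 0 := by
      have h2 := congrArg Prod.fst h
      simpa using h2
    have h2 : ((a' - a : ℤ) : ZMod 5) * (F m).2 = 0 := by
      have h3 := congrArg Prod.snd h
      simpa using h3
    by_contra hcne
    have e1 : (F m).1 = 0 := (mul_eq_zero.1 h1).resolve_left hcne
    have e2 : (F m).2 = 0 := (mul_eq_zero.1 h2).resolve_left hcne
    exact hm (Prod.ext e1 e2)
  have h2 : ((5 : ℕ) : ℤ) ∣ a' - a := (ZMod.intCast_zmod_eq_zero_iff_dvd (a' - a) 5).1 hc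
  exact_mod_cast h2

end Fermat.Agent.S52.GLUE
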