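import Fermat.Agent.S52.Basic

/-!
# S52 / GLUE / ShortModel: the point count is unchanged by passing to the short model.

For a field `k` in which `6` is invertible, `(x, y) ↦ (36 x + 3 b₂, 108 (2 y + a₁ x + a₃))` is a
bijection from the nonsingular affine points of `W` onto those of
`shortW (-27 c₄) (-54 c₆)`; adding the point at infinity gives a bijection of `Affine.Point`s.
-/

set_option autoImplicit false

open WeierstrassCurve WeierstrassCurve.Affine

namespace Fermat.Agent.S52.GLUE.SM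

variable {k : Type*} [Field k]

/-- The Weierstrass polynomial of the short model at the transformed point is `36^3` times the
Weierstrass polynomial of `W`. -/
theorem short_poly_eq (W : WeierstrassCurve k) (x y : k) :
    (108 * (2 * y + W.a₁ * x + W.a₃)) ^ 2
        - ((36 * x + 3 * W.b₂) ^ 3 + (-27 * W.c₄) * (36 * x + 3 * W.b₂) + (-54 * W.c₆))
      = 46656 * (y ^ 2 + W.a₁ * x * y + W.a₃ * y - (x ^ 3 + W.a₂ * x ^ 2 + W.a₄ * x + W.a₆)) := by
  simp only [WeierstrassCurve.b₂, WeierstrassCurve.b₄, WeierstrassCurve.b₆, WeierstrassCurve.c₄,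
    WeierstrassCurve.c₆]
  ring

theorem c46656_ne_zero (h2 : (2 : k) ≠ 0) (h3 : (3 : k) ≠ 0) : (46656 : k) ≠ 0 := by
  have h : (46656 : k) = 2 ^ 6 * 3 ^ 6 := by norm_num
  rw [h]
  exact mul_ne_zero (pow_ne_zero _ h2) (pow_ne_zero _ h3)

/-- The partial derivatives of the two Weierstrass polynomials are related by an invertible
linear map. -/
theorem short_polyX_eq (W : WeierstrassCurve k) (x y : k) :
    -(3 * (36 * x + 3 * W.b₂) ^ 2 + (-27 * W.c₄))
      = 1296 * (W.a₁ * y - (3 * x ^ 2 + 2 * W.a₂ * x + W.a₄))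
        - 648 * W.a₁ * (2 * y + W.a₁ * x + W.a₃) := by
  simp only [WeierstrassCurve.b₂, WeierstrassCurve.b₄, WeierstrassCurve.c₄]
  ring

/-- Equation transfer. -/
theorem equation_short_iff (h2 : (2 : k) ≠ 0) (h3 : (3 : k) ≠ 0) (W : WeierstrassCurve k)
    (x y : k) :
    (shortW (-27 * W.c₄) (-54 * W.c₆)).toAffine.Equation (36 * x + 3 * W.b₂)
        (108 * (2 * y + W.a₁ * x + W.a₃)) ↔ W.toAffine.Equation x y := by
  rw [Affine.equation_iff', Affine.equation_iff']
  have h := short_poly_eq W x y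
  have h0 := c46656_ne_zero h2 h3
  constructor
  · intro hE
    have h1 : 46656 * (y ^ 2 + W.a₁ * x * y + W.a₃ * y
        - (x ^ 3 + W.a₂ * x ^ 2 + W.a₄ * x + W.a₆)) = 0 := by
      rw [← h]
      linear_combination hE
    exact (mul_eq_zero.1 h1).resolve_left h0
  · intro hE
    have h1 : (108 * (2 * y + W.a₁ * x + W.a₃)) ^ 2
        - ((36 * x + 3 * W.b₂) ^ 3 + (-27 * W.c₄) * (36 * x + 3 * W.b₂) + (-54 * W.c₆)) = 0 := by
      rw [h]
      have hE' : y ^ 2 + W.a₁ * x * y + W.a₃ * y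
          - (x ^ 3 + W.a₂ * x ^ 2 + W.a₄ * x + W.a₆) = 0 := hE
      rw [hE', mul_zero]
    linear_combination h1

/-- Nonsingularity transfer. -/
theorem nonsingular_short_iff (h2 : (2 : k) ≠ 0) (h3 : (3 : k) ≠ 0) (W : WeierstrassCurve k)
    (x y : k) :
    (shortW (-27 * W.c₄) (-54 * W.c₆)).toAffine.Nonsingular (36 * x + 3 * W.b₂)
        (108 * (2 * y + W.a₁ * x + W.a₃)) ↔ W.toAffine.Nonsingular x y := by
  rw [Affine.nonsingular_iff', Affine.nonsingular_iff', equation_short_iff h2 h3]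
  have hX := short_polyX_eq W x y
  have h216 : (216 : k) ≠ 0 := by
    have h : (216 : k) = 2 ^ 3 * 3 ^ 3 := by norm_num
    rw [h]
    exact mul_ne_zero (pow_ne_zero _ h2) (pow_ne_zero _ h3)
  have h1296 : (1296 : k) ≠ 0 := by
    have h : (1296 : k) = 2 ^ 4 * 3 ^ 4 := by norm_num
    rw [h]
    exact mul_ne_zero (pow_ne_zero _ h2) (pow_ne_zero _ h3)
  refine and_congr_right fun _ => ?_
  rw [← not_iff_not, not_or, not_or, not_not, not_not, not_not, not_not]
  constructor
  · rintro ⟨hGX, hGY⟩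
    have hFy : 2 * y + W.a₁ * x + W.a₃ = 0 := by
      have h : 216 * (2 * y + W.a₁ * x + W.a₃) = 0 := by linear_combination hGY
      exact (mul_eq_zero.1 h).resolve_left h216
    have hFx : W.a₁ * y - (3 * x ^ 2 + 2 * W.a₂ * x + W.a₄) = 0 := by
      have h : 1296 * (W.a₁ * y - (3 * x ^ 2 + 2 * W.a₂ * x + W.a₄)) = 0 := by
        linear_combination hGX - hX + 648 * W.a₁ * hFy
      exact (mul_eq_zero.1 h).resolve_left h1296
    exact ⟨hFx, hFy⟩
  · rintro ⟨hFx, hFy⟩
    refine ⟨?_, ?_⟩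
    · linear_combination hX + 1296 * hFx - 648 * W.a₁ * hFy
    · linear_combination 216 * hFy

/-- The map on points. -/
noncomputable def toShort (h2 : (2 : k) ≠ 0) (h3 : (3 : k) ≠ 0) (W : WeierstrassCurve k) :
    W.toAffine.Point → (shortW (-27 * W.c₄) (-54 * W.c₆)).toAffine.Point
  | .zero => .zero
  | .some x y h => .some (36 * x + 3 * W.b₂) (108 * (2 * y + W.a₁ * x + W.a₃))
      ((nonsingular_short_iff h2 h3 W x y).2 h)

theorem toShort_injective (h2 : (2 : k) ≠ 0) (h3 : (3 : k) ≠ 0) (W : WeierstrassCurve k) :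
    Function.Injective (toShort h2 h3 W) := by
  have h36 : (36 : k) ≠ 0 := by
    have h : (36 : k) = 2 ^ 2 * 3 ^ 2 := by norm_num
    rw [h]
    exact mul_ne_zero (pow_ne_zero _ h2) (pow_ne_zero _ h3)
  have h108 : (108 : k) ≠ 0 := by
    have h : (108 : k) = 2 ^ 2 * 3 ^ 3 := by norm_num
    rw [h]
    exact mul_ne_zero (pow_ne_zero _ h2) (pow_ne_zero _ h3)
  rintro (_ | ⟨x, y, h⟩) (_ | ⟨x', y', h'⟩) hPQ
  · rfl
  · simp [toShort] at hPQ
  · simp [toShort] at hPQ
  · simp only [toShort, Point.some.injEq] at hPQ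
    obtain ⟨hx, hy⟩ := hPQ
    have hxx : x = x' := by
      have h : 36 * (x - x') = 0 := by linear_combination hx
      exact sub_eq_zero.1 ((mul_eq_zero.1 h).resolve_left h36)
    subst hxx
    have hyy : y = y' := by
      have h : 108 * (2 * (y - y')) = 0 := by linear_combination hy
      have h' := (mul_eq_zero.1 h).resolve_left h108
      exact sub_eq_zero.1 ((mul_eq_zero.1 h').resolve_left h2)
    subst hyy
    rfl

theorem toShort_surjective (h2 : (2 : k) ≠ 0) (h3 : (3 : k) ≠ 0) (W : WeierstrassCurve k) :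
    Function.Surjective (toShort h2 h3 W) := by
  have h36 : (36 : k) ≠ 0 := by
    have h : (36 : k) = 2 ^ 2 * 3 ^ 2 := by norm_num
    rw [h]
    exact mul_ne_zero (pow_ne_zero _ h2) (pow_ne_zero _ h3)
  have h108 : (108 : k) ≠ 0 := by
    have h : (108 : k) = 2 ^ 2 * 3 ^ 3 := by norm_num
    rw [h]
    exact mul_ne_zero (pow_ne_zero _ h2) (pow_ne_zero _ h3)
  rintro (_ | ⟨X, Y, hXY⟩)
  · exact ⟨.zero, rfl⟩
  · have hx : 36 * ((X - 3 * W.b₂) / 36) + 3 * W.b₂ = X := by field_simp; ring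
    have hy : 108 * (2 * ((Y / 108 - W.a₁ * ((X - 3 * W.b₂) / 36) - W.a₃) / 2)
        + W.a₁ * ((X - 3 * W.b₂) / 36) + W.a₃) = Y := by field_simp; ring
    have hns : W.toAffine.Nonsingular ((X - 3 * W.b₂) / 36)
        ((Y / 108 - W.a₁ * ((X - 3 * W.b₂) / 36) - W.a₃) / 2) := by
      rw [← nonsingular_short_iff h2 h3, hx, hy]
      exact hXY
    refine ⟨.some _ _ hns, ?_⟩
    simp only [toShort, Point.some.injEq]
    exact ⟨hx, hy⟩

/-- The bijection on points. -/
theorem nonempty_point_equiv (h2 : (2 : k) ≠ 0) (h3 : (3 : k) ≠ 0) (W : WeierstrassCurve k) :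
    Nonempty (W.toAffine.Point ≃ (shortW (-27 * W.c₄) (-54 * W.c₆)).toAffine.Point) :=
  ⟨Equiv.ofBijective (toShort h2 h3 W) ⟨toShort_injective h2 h3 W, toShort_surjective h2 h3 W⟩⟩

end Fermat.Agent.S52.GLUE.SM

namespace Fermat.Agent.S52

/-- Point count is unchanged by passing to the short model (6 invertible). -/
theorem card_shortModel {k : Type*} [Field k] [Fintype k] (h2 : (2 : k) ≠ 0) (h3 : (3 : k) ≠ 0)
    (W : WeierstrassCurve k) :
    Nat.card W.toAffine.Point = Nat.card (shortW (-27 * W.c₄) (-54 * W.c₆)).toAffine.Point := by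
  obtain ⟨e⟩ := GLUE.SM.nonempty_point_equiv h2 h3 W
  exact Nat.card_congr e

end Fermat.Agent.S52
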